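import Mathlib
import Fermat.Agent.MU.S36.HPVal.KCt
import Fermat.Agent.MU.Lib.BadRed.HPVal.CharPole
import Fermat.Agent.MU.Lib.BadRed.Mod.UCuspDegFinal
import Fermat.Agent.MU.Lib.BadRed.Mod.ALDegeneracy
import Fermat.Agent.MU.Lib.BadRed.Mod.ValZero
import Fermat.Agent.MU.Lib.BadRed.Mod.UParamW
import Fermat.Agent.MU.Lib.HeckeInputs.Modular

section MergeWrap_S36_HPVal_KCtPole -- from S36/HPVal/KCtPole.lean

set_option autoImplicit false
set_option linter.style.haveILetI false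
set_option linter.unusedSectionVars false
set_option linter.unusedVariables false
set_option synthInstance.maxHeartbeats 400000

noncomputable section
attribute [local instance 10000] SubalgebraClass.toAlgebra HahnSeries.powerSeriesAlgebra

namespace Fermat.Agent.S36

open ModularCurve AlgebraicCurve Polynomial Fermat.Agent.BadRed Fermat.Agent.AtkinLehner
  Fermat.Agent.HPVal

local notation "Qb" => AlgebraicClosure ℚ

/-! ### characteristic `0`, level `Q R` -/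

section ALLevel

variable (D : ALData) [NeZero D.Q] [NeZero D.R] [NeZero (D.Q * D.R)]

/-- `w_Q` preserves the set of places where `u = Δ(z)/Δ(Qz)` is a unit. -/
theorem kcp_ord_uF_atkinLehner (v : Place Qb (modularFunctionFieldBar (D.Q * D.R))) :
    v.ord (atkinLehner D (uF (D.Q * D.R) D.Q (Dvd.intro _ rfl))) =
      -v.ord (uF (D.Q * D.R) D.Q (Dvd.intro _ rfl)) := by
  have hc : algebraMap Qb (modularFunctionFieldBar (D.Q * D.R)) ((D.Q : Qb) ^ 12) ≠ 0 := by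
    refine (_root_.map_ne_zero _).mpr (pow_ne_zero _ ?_)
    exact_mod_cast (NeZero.ne D.Q)
  have e : (D.Q : modularFunctionFieldBar (D.Q * D.R)) ^ 12 =
      algebraMap Qb (modularFunctionFieldBar (D.Q * D.R)) ((D.Q : Qb) ^ 12) := by
    rw [map_pow, map_natCast]
  rw [atkinLehner_uF, e, div_eq_mul_inv, v.ord_mul hc (inv_ne_zero (uF_ne_zero _ _ _)),
    Fermat.Agent.S24Res.ord_algebraMap, zero_add, v.ord_inv]

/-- `α j = j` at the level `Q R`. -/
theorem kcp_alphaQ_jBar :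
    alphaQ D (Fermat.Agent.S24.jBar D.R) = Fermat.Agent.S24.jBar (D.Q * D.R) := by
  apply Subtype.ext
  rw [coe_alphaQ]
  rfl

/-- **characteristic `0`**: the poles of `j(Qz)` are poles of `j` on `X₀(QR)`. -/
theorem kcp_ord_jBar_of_betaQ (hQ : D.Q.Prime)
    (v : Place Qb (modularFunctionFieldBar (D.Q * D.R)))
    (hv : v.ord (betaQ D (Fermat.Agent.S24.jBar D.R)) < 0) :
    v.ord (Fermat.Agent.S24.jBar (D.Q * D.R)) < 0 := by
  have hdvd : D.Q ∣ D.Q * D.R := Dvd.intro _ rfl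
  rw [← atkinLehner_alphaQ, kcp_alphaQ_jBar, ← ord_wAut_smul] at hv
  have h1 := (ord_jBar_neg_iff_uF hQ hdvd (wAut D • v)).mp hv
  rw [ord_wAut_smul, kcp_ord_uF_atkinLehner] at h1
  refine (ord_jBar_neg_iff_uF hQ hdvd v).mpr ?_
  intro h0
  apply h1
  rw [h0, neg_zero]

/-- the same at any level `M = Q R`, for elements given by their expansions. -/
theorem kcp_ord_of_level_eq (hQ : D.Q.Prime) {M : ℕ} (hM : M = D.Q * D.R)
    (v : Place Qb (modularFunctionFieldBar M)) (x y : modularFunctionFieldBar M)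
    (hx : (x : LaurentSeries Qb) = ((Fermat.Agent.S24.jBar D.R : modularFunctionFieldBar D.R) :
      LaurentSeries Qb))
    (hy : (y : LaurentSeries Qb) = qExpand Qb D.Q
      ((Fermat.Agent.S24.jBar D.R : modularFunctionFieldBar D.R) : LaurentSeries Qb))
    (hv : v.ord y < 0) : v.ord x < 0 := by
  subst hM
  have hx' : x = Fermat.Agent.S24.jBar (D.Q * D.R) := by
    rw [← kcp_alphaQ_jBar]
    apply Subtype.ext
    rw [hx, coe_alphaQ]
  have hy' : y = betaQ D (Fermat.Agent.S24.jBar D.R) := by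
    apply Subtype.ext
    rw [hy, coe_betaQ]
  rw [hx']
  rw [hy'] at hv
  exact kcp_ord_jBar_of_betaQ D hQ v hv

end ALLevel

/-! ### level `N ℓ` -/

section Level

variable (N ℓ : ℕ) [NeZero N] [NeZero ℓ]

theorem kcp_hasPrincipalDivisors (M : ℕ) [NeZero M] :
    HasPrincipalDivisors Qb ↥(modularFunctionFieldBar M) :=
  Fermat.Agent.S24Diff.hasPrincipalDivisors (Fermat.Agent.S24.isFunctionFieldOver_jBar M)

theorem kcp_isIntegral {A B : ℕ} [NeZero A] [NeZero B]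
    (φ : ↥(modularFunctionFieldBar A) →ₐ[Qb] ↥(modularFunctionFieldBar B)) :
    φ.toRingHom.IsIntegral :=
  Fermat.Agent.HeckeInputs.hi_isIntegral_of_finiteAlong φ
    (Fermat.Agent.HeckeInputs.hi_finiteAlong φ
      (Fermat.Agent.S24.isFunctionFieldOver_jBar A).transcendental
      (Fermat.Agent.S24.isFunctionFieldOver_jBar B))

/-- **the second degeneracy map does not move a non-cuspidal place to a cusp**:
`0 ≤ ord_w (α j) ⟹ 0 ≤ ord_w (β j)` at the level `N ℓ`. -/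
theorem kcp_ord_beta_jBar (hℓ : ℓ.Prime) (hℓN : ¬ ℓ ∣ N)
    (w : Place Qb ↥(modularFunctionFieldBar (N * ℓ)))
    (hw : 0 ≤ w.ord (heckeAlphaBar Qb N ℓ (Fermat.Agent.S24.jBar N))) :
    0 ≤ w.ord (heckeBetaBar Qb N ℓ (Fermat.Agent.S24.jBar N)) := by
  have hcop : Nat.Coprime ℓ N := (Nat.Prime.coprime_iff_not_dvd hℓ).mpr hℓN
  obtain ⟨D, hDQ, hDR⟩ := ALData.exists_of_coprime hℓ.pos (Nat.pos_of_ne_zero (NeZero.ne N)) hcop
  subst hDQ hDR
  haveI : NeZero (D.Q * D.R) := ⟨Nat.mul_ne_zero (NeZero.ne _) (NeZero.ne _)⟩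
  by_contra hcon
  have hlt : w.ord (heckeBetaBar Qb D.R D.Q (Fermat.Agent.S24.jBar D.R)) < 0 := not_le.mp hcon
  have h1 := kcp_ord_of_level_eq D hℓ (mul_comm D.R D.Q) w
    (heckeAlphaBar Qb D.R D.Q (Fermat.Agent.S24.jBar D.R))
    (heckeBetaBar Qb D.R D.Q (Fermat.Agent.S24.jBar D.R))
    (coe_heckeAlphaBar _ _ _) (coe_heckeBetaBar _ _ _) hlt
  omega

/-- `β g` is regular at every place of `F_{Nℓ}` which is not a pole of `α j`, for `g` with poles
only at the poles of `j`. -/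
theorem kcp_ord_beta (hℓ : ℓ.Prime) (hℓN : ¬ ℓ ∣ N) (g : ↥(modularFunctionFieldBar N))
    (hg : ∀ Q : Place Qb ↥(modularFunctionFieldBar N),
      0 ≤ Q.ord (Fermat.Agent.S24.jBar N) → 0 ≤ Q.ord g)
    (w : Place Qb ↥(modularFunctionFieldBar (N * ℓ)))
    (hw : 0 ≤ w.ord (heckeAlphaBar Qb N ℓ (Fermat.Agent.S24.jBar N))) :
    0 ≤ w.ord (heckeBetaBar Qb N ℓ g) := by
  have hβ := kcp_isIntegral (heckeBetaBar Qb N ℓ)
  rw [← cpole_ord_restrictAlong_nonneg_iff (heckeBetaBar Qb N ℓ) hβ]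
  apply hg
  rw [cpole_ord_restrictAlong_nonneg_iff (heckeBetaBar Qb N ℓ) hβ]
  exact kcp_ord_beta_jBar N ℓ hℓ hℓN w hw

/-- `α g` is regular at every place of `F_{Nℓ}` which is not a pole of `α j`. -/
theorem kcp_ord_alpha (g : ↥(modularFunctionFieldBar N))
    (hg : ∀ Q : Place Qb ↥(modularFunctionFieldBar N),
      0 ≤ Q.ord (Fermat.Agent.S24.jBar N) → 0 ≤ Q.ord g)
    (w : Place Qb ↥(modularFunctionFieldBar (N * ℓ)))
    (hw : 0 ≤ w.ord (heckeAlphaBar Qb N ℓ (Fermat.Agent.S24.jBar N))) :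
    0 ≤ w.ord (heckeAlphaBar Qb N ℓ g) := by
  have hα := kcp_isIntegral (heckeAlphaBar Qb N ℓ)
  rw [← cpole_ord_restrictAlong_nonneg_iff (heckeAlphaBar Qb N ℓ) hα]
  apply hg
  rw [cpole_ord_restrictAlong_nonneg_iff (heckeAlphaBar Qb N ℓ) hα]
  exact hw

/-- **(K')**: the coefficients of the characteristic polynomial of `β g` over `F_N` (along `α`)
have poles only at the poles of `j`. -/
theorem kcp_charpoly_coeff (hℓ : ℓ.Prime) (hℓN : ¬ ℓ ∣ N)
    (hfin : FiniteAlong Qb (heckeAlphaBar Qb N ℓ)) (g : ↥(modularFunctionFieldBar N))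
    (hg : ∀ Q : Place Qb ↥(modularFunctionFieldBar N),
      0 ≤ Q.ord (Fermat.Agent.S24.jBar N) → 0 ≤ Q.ord g)
    (Q : Place Qb ↥(modularFunctionFieldBar N)) (hQ : 0 ≤ Q.ord (Fermat.Agent.S24.jBar N))
    (i : ℕ) :
    0 ≤ Q.ord ((charpolyAlong (heckeAlphaBar Qb N ℓ) hfin (heckeBetaBar Qb N ℓ g)).coeff i) := by
  have hα := kcp_isIntegral (heckeAlphaBar Qb N ℓ)
  haveI : HasPrincipalDivisors Qb ↥(modularFunctionFieldBar (N * ℓ)) :=
    kcp_hasPrincipalDivisors (N * ℓ)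
  have H : NormFormulaAlong Qb (heckeAlphaBar Qb N ℓ) hfin :=
    Fermat.Agent.HeckeInputs.hi_normFormulaAlong (heckeAlphaBar Qb N ℓ) hfin
      (Fermat.Agent.S24.isFunctionFieldOver_jBar N)
      (Fermat.Agent.S24.isFunctionFieldOver_jBar (N * ℓ))
  refine cpole_charpoly_coeff (heckeAlphaBar Qb N ℓ) hα hfin H Q _ (fun w hw => ?_) i
  refine kcp_ord_beta N ℓ hℓ hℓN g hg w ?_
  rw [← cpole_ord_restrictAlong_nonneg_iff (heckeAlphaBar Qb N ℓ) hα, hw]
  exact hQ

variable {ℓ}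

/-- the coefficients of helper87's `Ψ_g` have poles only at the poles of `j`. -/
theorem kcp_kctPsi_coeff (hℓ : ℓ.Prime) (hℓN : ¬ ℓ ∣ N) (g : ↥(modularFunctionFieldBar N))
    (hg : ∀ Q : Place Qb ↥(modularFunctionFieldBar N),
      0 ≤ Q.ord (Fermat.Agent.S24.jBar N) → 0 ≤ Q.ord g)
    (Q : Place Qb ↥(modularFunctionFieldBar N)) (hQ : 0 ≤ Q.ord (Fermat.Agent.S24.jBar N))
    (i : ℕ) : 0 ≤ Q.ord ((kctPsi N hℓ hℓN g).coeff i) :=
  kcp_charpoly_coeff N ℓ hℓ hℓN _ g hg Q hQ i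

/-- the coefficients of the main term `(X - g^ℓ)(X^ℓ - g)` are regular where `g` is. -/
theorem kcp_kctMain_coeff (g : ↥(modularFunctionFieldBar N))
    (Q : Place Qb ↥(modularFunctionFieldBar N)) (hQ : 0 ≤ Q.ord g) (i : ℕ) :
    0 ≤ Q.ord ((kctMain (ℓ := ℓ) N g).coeff i) := by
  have hmem : g ∈ Q.toValuationSubring.toSubring := Fermat.Agent.S24Res.mem_of_ord_nonneg Q hQ
  let g' : Q.toValuationSubring.toSubring := ⟨g, hmem⟩
  have e1 : Q.toValuationSubring.toSubring.subtype g' = g := rfl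
  have h1 : kctMain (ℓ := ℓ) N g =
      (((X : Polynomial Q.toValuationSubring.toSubring) - Polynomial.C (g' ^ ℓ)) *
        (X ^ ℓ - Polynomial.C g')).map Q.toValuationSubring.toSubring.subtype := by
    have e2 : Q.toValuationSubring.toSubring.subtype (g' ^ ℓ) = g ^ ℓ := by
      rw [map_pow, e1]
    rw [kctMain, Polynomial.map_mul, Polynomial.map_sub, Polynomial.map_sub, Polynomial.map_pow,
      Polynomial.map_X, Polynomial.map_C, Polynomial.map_C, e1, e2]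
  rw [h1, Polynomial.coeff_map]
  exact Fermat.Agent.S24Res.ord_nonneg_of_mem Q (Subtype.property _)

/-- **the coefficients of helper87's remainder `R_g`** have poles only at the poles of `j`. -/
theorem kcp_kctR_coeff (hℓ : ℓ.Prime) (hℓN : ¬ ℓ ∣ N) (g : ↥(modularFunctionFieldBar N))
    (hg : ∀ Q : Place Qb ↥(modularFunctionFieldBar N),
      0 ≤ Q.ord (Fermat.Agent.S24.jBar N) → 0 ≤ Q.ord g)
    (Q : Place Qb ↥(modularFunctionFieldBar N)) (hQ : 0 ≤ Q.ord (Fermat.Agent.S24.jBar N))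
    (i : ℕ) : 0 ≤ Q.ord ((kctR N hℓ hℓN g).coeff i) := by
  have h1 := Fermat.Agent.S24Res.mem_of_ord_nonneg Q (kcp_kctPsi_coeff N hℓ hℓN g hg Q hQ i)
  have h2 := Fermat.Agent.S24Res.mem_of_ord_nonneg Q (kcp_kctMain_coeff (ℓ := ℓ) N g Q (hg Q hQ) i)
  have h3 : (((ℓ : ℕ) : ↥(modularFunctionFieldBar N)))⁻¹ ∈ Q.toValuationSubring := by
    have : (((ℓ : ℕ) : ↥(modularFunctionFieldBar N)))⁻¹ =
        algebraMap Qb ↥(modularFunctionFieldBar N) (((ℓ : ℕ) : Qb)⁻¹) := by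
      rw [map_inv₀, map_natCast]
    rw [this]
    exact Q.algebraMap_mem' _
  refine Fermat.Agent.S24Res.ord_nonneg_of_mem Q ?_
  rw [kctR, Polynomial.coeff_C_mul, Polynomial.coeff_sub]
  exact mul_mem h3 (sub_mem h1 h2)

end Level

end Fermat.Agent.S36
end
end MergeWrap_S36_HPVal_KCtPole
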