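import Mathlib
import Fermat.Agent.MU.S36.HPVal.DegIota
import Fermat.Agent.MU.S36.Igusa.Defs
import Fermat.Agent.MU.Lib.HP.YFun
import Fermat.Agent.Lib.BadRed.HPVal.DiscTaylor

section MergeWrap_S36_HPVal_Defs -- from S36/HPVal/Defs.lean

set_option autoImplicit false
set_option linter.style.haveILetI false
set_option linter.unusedSectionVars false
set_option synthInstance.maxHeartbeats 400000

noncomputable section
attribute [local instance 10000] SubalgebraClass.toAlgebra HahnSeries.powerSeriesAlgebra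

namespace Fermat.Agent.S36G

open ModularCurve AlgebraicCurve IntermediateField Fermat.Agent.F3 Fermat.Agent.F3G Fermat.Agent.GaussInt
  Fermat.Agent.Deuring Fermat.Agent.BadRed Fermat.Agent.HPVal Fermat.Agent.HP

local notation "Qb" => AlgebraicClosure ℚ

/-! ### the old copies of `F₀` and the coordinates -/

section Maps

variable (M₀ q : ℕ) [NeZero M₀] [NeZero q]

/-- `ι₀ : F_{M₀} → F_{M₀ q²}`, `f ↦ f(z)` (`α ∘ α`). -/
def wpIota0 : FBar M₀ →ₐ[Qb] FBar (M₀ * q * q) :=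
  (heckeAlphaBar Qb (M₀ * q) q).comp (heckeAlphaBar Qb M₀ q)

/-- `ι₂ : F_{M₀} → F_{M₀ q²}`, `f ↦ f(q² z)` (`β ∘ β`). -/
def wpIota2 : FBar M₀ →ₐ[Qb] FBar (M₀ * q * q) :=
  (heckeBetaBar Qb (M₀ * q) q).comp (heckeBetaBar Qb M₀ q)

theorem coe_wpIota0 (x : FBar M₀) :
    ((wpIota0 M₀ q x : FBar (M₀ * q * q)) : LaurentSeries Qb) = (x : LaurentSeries Qb) := by
  rw [wpIota0, AlgHom.comp_apply, coe_heckeAlphaBar, coe_heckeAlphaBar]

theorem coe_wpIota2 (x : FBar M₀) :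
    ((wpIota2 M₀ q x : FBar (M₀ * q * q)) : LaurentSeries Qb) =
      qExpand Qb q (qExpand Qb q (x : LaurentSeries Qb)) := by
  rw [wpIota2, AlgHom.comp_apply, coe_heckeBetaBar, coe_heckeBetaBar]

/-- `W = (ι₀ t - a) / ϖ`. -/
def wpW (t : FBar M₀) (a ϖ : Qb) : FBar (M₀ * q * q) :=
  (wpIota0 M₀ q t - algebraMap Qb (FBar (M₀ * q * q)) a) / algebraMap Qb (FBar (M₀ * q * q)) ϖ

/-- `Zc = (ι₂ t - a) / ϖ`. -/
def wpZ (t : FBar M₀) (a ϖ : Qb) : FBar (M₀ * q * q) :=
  (wpIota2 M₀ q t - algebraMap Qb (FBar (M₀ * q * q)) a) / algebraMap Qb (FBar (M₀ * q * q)) ϖ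

/-- `Y = (ι₁ t - a^q) / ϖ^q`. -/
def wpY (t : FBar M₀) (a ϖ : Qb) : FBar (M₀ * q * q) :=
  (wpdIota1 M₀ q t - algebraMap Qb (FBar (M₀ * q * q)) (a ^ q)) /
    algebraMap Qb (FBar (M₀ * q * q)) (ϖ ^ q)

end Maps

/-! ### the Gauss reduction of `F₀` as a reduction package -/

/-- `S0` is the Gauss reduction of `F_{M₀}` at `A` (with ITS reduction map of places `S0.r`). -/
structure IsGaussRed (M₀ : ℕ) [NeZero M₀] (A : ValuationSubring Qb)
    (S0 : Fermat.Agent.S18Key.RedSetup Qb (FBar M₀) (IsLocalRing.ResidueField A)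
      ↥(modularFunctionFieldFullC (IsLocalRing.ResidueField A) M₀)) : Prop where
  A_eq : S0.A = A
  res_eq : ∀ (c : Qb) (h : c ∈ S0.A) (h' : c ∈ A), S0.res ⟨c, h⟩ = IsLocalRing.residue A ⟨c, h'⟩
  mem_iff : ∀ f : FBar M₀,
    f ∈ S0.Ov ↔ (f : LaurentSeries Qb) ∈ gaussSub A (modularFunctionFieldBar M₀)
  coe_red : ∀ f : FBar M₀, f ∈ S0.Ov →
    ((S0.red f : ↥(modularFunctionFieldFullC (IsLocalRing.ResidueField A) M₀)) :
        LaurentSeries (IsLocalRing.ResidueField A)) =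
      gaussResFun A (modularFunctionFieldBar M₀) (f : LaurentSeries Qb)

/-! ### the predicates of the interface (abstract) -/

section Pred

variable {K F₀ F k Fk0 FkP : Type*} [Field K] [Field F₀] [Algebra K F₀] [Field F] [Algebra K F]
  [Field k] [Field Fk0] [Algebra k Fk0] [Field FkP] [Algebra k FkP]

/-- **(OLD)** the old functions `ι g`, `g ∈ R_P`, are integral for `S` and reduce to the constant
`ḡ (P)`. -/
def WPOld (S0 : Fermat.Agent.S18Key.RedSetup K F₀ k Fk0) (P : Place k Fk0) (ι : F₀ →ₐ[K] F)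
    (S : ValSetup K F k FkP) : Prop :=
  ∀ g ∈ discRing S0 P, ∀ c : k, ValAt P (S0.red g) c →
    ι g ∈ S.Ov ∧ S.red (ι g) = algebraMap k FkP c

/-- the valuation ring `O'` of `F` is centred at `P` along `ι`: it contains `ι (R_P)`, and the
functions of `R_P` whose reduction vanishes at `P` are non-units. -/
def WPCentred (S0 : Fermat.Agent.S18Key.RedSetup K F₀ k Fk0) (P : Place k Fk0) (ι : F₀ →ₐ[K] F)
    (O' : ValuationSubring F) : Prop :=
  ∀ g ∈ discRing S0 P, ι g ∈ O' ∧ (ValAt P (S0.red g) 0 → ι g ∈ O'.nonunits)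

/-- `y` is a unit of `O'` with residue transcendental over the residue field of `A`: every
polynomial with coefficients in `A`, one of them a unit, takes a unit value at `y`. -/
def WPGeneric (A : ValuationSubring K) (O' : ValuationSubring F) (y : F) : Prop :=
  ∀ G : Polynomial K, (∀ i, G.coeff i ∈ A) → (∃ i, G.coeff i ≠ 0 ∧ (G.coeff i)⁻¹ ∈ A) →
    Polynomial.aeval y G ∈ O' ∧ (Polynomial.aeval y G)⁻¹ ∈ O'

end Pred

/-! ### the output of block W-P -/

/-- **The output of block W-P at the supersingular place `P`**: the constant reduction `w_P` of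
`F = F_{M₀ q q}` with residue field `FkP = k(H_P)`. -/
structure WPOut (M₀ q : ℕ) [NeZero M₀] [NeZero q] (A : ValuationSubring Qb)
    (S0 : Fermat.Agent.S18Key.RedSetup Qb (FBar M₀) (IsLocalRing.ResidueField A)
      ↥(modularFunctionFieldFullC (IsLocalRing.ResidueField A) M₀))
    (P : Place (IsLocalRing.ResidueField A)
      ↥(modularFunctionFieldFullC (IsLocalRing.ResidueField A) M₀))
    (FkP : Type) [Field FkP] [Algebra (IsLocalRing.ResidueField A) FkP] where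
  /-- **(V)** the constant reduction `w_P` -/
  S : ValSetup Qb (FBar (M₀ * q * q)) (IsLocalRing.ResidueField A) FkP
  A_eq : S.A = A
  res_eq : ∀ (c : Qb) (h : c ∈ S.A) (h' : c ∈ A), S.res ⟨c, h⟩ = IsLocalRing.residue A ⟨c, h'⟩
  /-- **(L)** the lattice property -/
  lat : HasLattice S
  /-- **(D)** the datum: `t` rational, `q`-integral, regular on the supersingular discs -/
  t : FBar M₀
  /-- the (Teichmüller) lift of `t̄ (P)` -/
  a : Qb
  /-- the uniformiser of the stable field: `ϖ ^ (q + 1) = q` -/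
  ϖ : Qb
  /-- the centre of the old copy `ι₁` (the Frobenius twist of `P`) -/
  P' : Place (IsLocalRing.ResidueField A)
    ↥(modularFunctionFieldFullC (IsLocalRing.ResidueField A) M₀)
  ss' : IsSSPlace (IsLocalRing.ResidueField A) M₀ q P'
  t_rat : ∀ τ : Qb ≃ₐ[ℚ] Qb, galFun M₀ τ t = t
  t_mem : ∀ Q : Place (IsLocalRing.ResidueField A)
      ↥(modularFunctionFieldFullC (IsLocalRing.ResidueField A) M₀),
    IsSSPlace (IsLocalRing.ResidueField A) M₀ q Q → t ∈ discRing S0 Q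
  a_mem : a ∈ A
  a_pow : a ^ (q ^ 2) = a
  /-- `t̄ - t̄ (P)` is a uniformiser at `P` -/
  ord_t : P.ord (S0.red t -
    algebraMap (IsLocalRing.ResidueField A)
      ↥(modularFunctionFieldFullC (IsLocalRing.ResidueField A) M₀)
      (IsLocalRing.residue A ⟨a, a_mem⟩)) = 1
  /-- `t̄ - t̄ (P)^q` is a uniformiser at `P'` -/
  ord_t' : P'.ord (S0.red t -
    algebraMap (IsLocalRing.ResidueField A)
      ↥(modularFunctionFieldFullC (IsLocalRing.ResidueField A) M₀)
      (IsLocalRing.residue A ⟨a ^ q, pow_mem a_mem q⟩)) = 1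
  ϖ_pow : ϖ ^ (q + 1) = (q : Qb)
  /-- **(H)** the curve `H_P : X₁ X₂ (X₁ - X₂)^(q-1) = c` on the residue field -/
  H : HPCurve (IsLocalRing.ResidueField A) FkP q
  W_mem : wpW M₀ q t a ϖ ∈ S.Ov
  Z_mem : wpZ M₀ q t a ϖ ∈ S.Ov
  Y_mem : wpY M₀ q t a ϖ ∈ S.Ov
  red_W : S.red (wpW M₀ q t a ϖ) = H.X1
  red_Z : S.red (wpZ M₀ q t a ϖ) = H.X2
  red_Y : S.red (wpY M₀ q t a ϖ) = H.Yf
  /-- **(OLD)** the old functions reduce to constants -/
  old0 : WPOld S0 P (wpIota0 M₀ q) S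
  old1 : WPOld S0 P' (wpdIota1 M₀ q) S
  old2 : WPOld S0 P (wpIota2 M₀ q) S
  /-- **(N)** the residue field of the restriction of `w_P` to `ι₁ F₀` is `k(Y)` -/
  res_Y : ∀ g : FBar M₀, wpdIota1 M₀ q g ∈ S.Ov →
    S.red (wpdIota1 M₀ q g) ∈ (IsLocalRing.ResidueField A)⟮H.Yf⟯
  /-- **(U) UNIQUENESS EXPORT**: a valuation ring of `F` over `A` which is centred at `P'` along
  `ι₁` and for which `Y` is generic IS `O_{w_P}`. -/
  uniq : ∀ O' : ValuationSubring (FBar (M₀ * q * q)),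
    (∀ c : Qb, algebraMap Qb (FBar (M₀ * q * q)) c ∈ O' ↔ c ∈ A) →
    WPCentred S0 P' (wpdIota1 M₀ q) O' → WPGeneric A O' (wpY M₀ q t a ϖ) → O' = S.Ov

/-- **W-P, the statement of the assembly** (`S36/HPVal/Val.lean`): for every Gauss reduction
package `S0` of `F_{M₀}` at `A ∣ q` and every supersingular place `P` there are a field `FkP`
and a `WPOut`. -/
def WPStatement (M₀ q : ℕ) [NeZero M₀] [NeZero q] : Prop :=
  q.Prime → ¬ q ∣ M₀ → ∀ (A : ValuationSubring Qb), A.LiesOverPrime q →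
    ∀ S0 : Fermat.Agent.S18Key.RedSetup Qb (FBar M₀) (IsLocalRing.ResidueField A)
      ↥(modularFunctionFieldFullC (IsLocalRing.ResidueField A) M₀),
    IsGaussRed M₀ A S0 →
    ∀ P : Place (IsLocalRing.ResidueField A)
      ↥(modularFunctionFieldFullC (IsLocalRing.ResidueField A) M₀),
    IsSSPlace (IsLocalRing.ResidueField A) M₀ q P →
    ∃ (FkP : Type) (_ : Field FkP) (_ : Algebra (IsLocalRing.ResidueField A) FkP),
      Nonempty (WPOut M₀ q A S0 P FkP)

/-! ### first consequences -/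

namespace WPOut

variable {M₀ q : ℕ} [NeZero M₀] [NeZero q] {A : ValuationSubring Qb}
  {S0 : Fermat.Agent.S18Key.RedSetup Qb (FBar M₀) (IsLocalRing.ResidueField A)
    ↥(modularFunctionFieldFullC (IsLocalRing.ResidueField A) M₀)}
  {P : Place (IsLocalRing.ResidueField A)
    ↥(modularFunctionFieldFullC (IsLocalRing.ResidueField A) M₀)}
  {FkP : Type} [Field FkP] [Algebra (IsLocalRing.ResidueField A) FkP]
  (O : WPOut M₀ q A S0 P FkP)

/-- `W` is a unit of `O_{w_P}`. -/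
theorem W_inv_mem : (wpW M₀ q O.t O.a O.ϖ)⁻¹ ∈ O.S.Ov :=
  O.S.inv_mem_of_red_ne_zero (by rw [O.red_W]; exact O.H.X1_ne)

/-- `Zc` is a unit of `O_{w_P}`. -/
theorem Z_inv_mem : (wpZ M₀ q O.t O.a O.ϖ)⁻¹ ∈ O.S.Ov :=
  O.S.inv_mem_of_red_ne_zero (by rw [O.red_Z]; exact O.H.X2_ne)

/-- `Y` is a unit of `O_{w_P}`. -/
theorem Y_inv_mem : (wpY M₀ q O.t O.a O.ϖ)⁻¹ ∈ O.S.Ov :=
  O.S.inv_mem_of_red_ne_zero (by rw [O.red_Y]; exact O.H.Yf_ne)

theorem ϖ_ne (hq : q.Prime) : O.ϖ ≠ 0 := by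
  intro h
  have h1 := O.ϖ_pow
  rw [h, zero_pow (Nat.succ_ne_zero q)] at h1
  exact (Nat.cast_ne_zero.mpr hq.ne_zero) h1.symm

/-- the relation of `H_P` for the reductions of `W`, `Zc`. -/
theorem red_rel :
    O.S.red (wpW M₀ q O.t O.a O.ϖ) * O.S.red (wpZ M₀ q O.t O.a O.ϖ) *
        (O.S.red (wpW M₀ q O.t O.a O.ϖ) - O.S.red (wpZ M₀ q O.t O.a O.ϖ)) ^ (q - 1) =
      algebraMap (IsLocalRing.ResidueField A) FkP O.H.c := by
  rw [O.red_W, O.red_Z]
  exact O.H.rel

/-- the residue field is generated by the reductions of `W` and `Zc`. -/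
theorem adjoin_red_eq_top :
    IntermediateField.adjoin (IsLocalRing.ResidueField A)
      {O.S.red (wpW M₀ q O.t O.a O.ϖ), O.S.red (wpZ M₀ q O.t O.a O.ϖ)} = ⊤ := by
  rw [O.red_W, O.red_Z]
  exact O.H.gen

end WPOut

end Fermat.Agent.S36G
end
end MergeWrap_S36_HPVal_Defs
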