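import Mathlib
import Fermat.Agent.Lib.BadRed.Mod.FrobAut
import Fermat.Agent.MU.Lib.BadRed.Mod.FrobFix
import Fermat.Agent.MU.S36.Igusa.Defs
import Fermat.Agent.MU.S36.HPVal.ExTDefs

section MergeWrap_S36_HPVal_Centres -- from S36/HPVal/Centres.lean

set_option autoImplicit false
set_option linter.style.haveILetI false
set_option linter.unusedSectionVars false
set_option linter.unusedVariables false
set_option synthInstance.maxHeartbeats 400000

noncomputable section
attribute [local instance 10000] SubalgebraClass.toAlgebra HahnSeries.powerSeriesAlgebra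

namespace Fermat.Agent.S36G

open ModularCurve AlgebraicCurve Fermat.Agent.Deuring Fermat.Agent.GaussInt Fermat.Agent.BadRed

local notation "Qb" => AlgebraicClosure ℚ

/-! ### the Frobenius on the supersingular places -/

section SS

variable (k : Type*) [Field k] (M0 q : ℕ) [Fact q.Prime] [CharP k q] [PerfectRing k q]

/-- the supersingular places are stable under the Frobenius. -/
theorem centres_isSS_frob {P : Place k ↥(modularFunctionFieldFullC k M0)}
    (hP : IsSSPlace k M0 q P) : IsSSPlace k M0 q (frobAut k M0 q • P) := by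
  obtain ⟨u, hu, hpos⟩ := hP
  exact ⟨u, hu, (ord_frobAut_smul_pos_iff k M0 q q hu P).mpr hpos⟩

/-- the supersingular places are stable under the inverse of the Frobenius. -/
theorem centres_isSS_frob_inv {P : Place k ↥(modularFunctionFieldFullC k M0)}
    (hP : IsSSPlace k M0 q P) : IsSSPlace k M0 q ((frobAut k M0 q)⁻¹ • P) := by
  obtain ⟨u, hu, hpos⟩ := hP
  exact ⟨u, hu, (ord_frobAut_inv_smul_pos_iff k M0 q q hu P).mpr hpos⟩

theorem centres_isSS_frob_iff (P : Place k ↥(modularFunctionFieldFullC k M0)) :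
    IsSSPlace k M0 q (frobAut k M0 q • P) ↔ IsSSPlace k M0 q P := by
  constructor
  · intro h
    have h1 := centres_isSS_frob_inv k M0 q h
    rwa [inv_smul_smul] at h1
  · exact centres_isSS_frob k M0 q

/-- the two twists of a place fixed by `Φ²` agree. -/
theorem centres_frob_inv_eq {P : Place k ↥(modularFunctionFieldFullC k M0)}
    (h2 : (frobAut k M0 q * frobAut k M0 q) • P = P) :
    (frobAut k M0 q)⁻¹ • P = frobAut k M0 q • P := by
  rw [inv_smul_eq_iff, ← mul_smul, h2]

/-- `Φ²` fixes `Φ P` if it fixes `P`. -/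
theorem centres_frob_sq_frob {P : Place k ↥(modularFunctionFieldFullC k M0)}
    (h2 : (frobAut k M0 q * frobAut k M0 q) • P = P) :
    (frobAut k M0 q * frobAut k M0 q) • (frobAut k M0 q • P) = frobAut k M0 q • P := by
  rw [← mul_smul, mul_assoc, mul_smul, mul_smul, ← mul_smul (frobAut k M0 q) (frobAut k M0 q) P,
    h2]

/-! ### functions fixed by the Frobenius -/

/-- orders of a `Φ`-fixed function at `Φ P`. -/
theorem centres_ord_frob {f : ↥(modularFunctionFieldFullC k M0)}
    (hf : frobAut k M0 q • f = f) (P : Place k ↥(modularFunctionFieldFullC k M0)) :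
    (frobAut k M0 q • P).ord f = P.ord f := by
  conv_lhs => rw [← hf]
  exact SemilinearAut.ord_smul _ _ _

/-- orders of a `Φ`-fixed function at `Φ⁻¹ P`. -/
theorem centres_ord_frob_inv {f : ↥(modularFunctionFieldFullC k M0)}
    (hf : frobAut k M0 q • f = f) (P : Place k ↥(modularFunctionFieldFullC k M0)) :
    ((frobAut k M0 q)⁻¹ • P).ord f = P.ord f := by
  have h := centres_ord_frob k M0 q hf ((frobAut k M0 q)⁻¹ • P)
  rw [smul_inv_smul] at h
  exact h.symm

/-- `ord_{Φ P} (f - c^q) = ord_P (f - c)` for a `Φ`-fixed function `f`. -/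
theorem centres_ord_frob_sub {f : ↥(modularFunctionFieldFullC k M0)}
    (hf : frobAut k M0 q • f = f) (P : Place k ↥(modularFunctionFieldFullC k M0)) (c : k) :
    (frobAut k M0 q • P).ord (f - algebraMap k ↥(modularFunctionFieldFullC k M0) (c ^ q)) =
      P.ord (f - algebraMap k ↥(modularFunctionFieldFullC k M0) c) := by
  have e : f - algebraMap k ↥(modularFunctionFieldFullC k M0) (c ^ q) =
      frobAut k M0 q • (f - algebraMap k ↥(modularFunctionFieldFullC k M0) c) := by
    rw [smul_sub, hf, frobAut_smul_algebraMap]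
  rw [e]
  exact SemilinearAut.ord_smul _ _ _

/-- **`f(Φ P) = f(P)^q`** for a `Φ`-fixed function `f`. -/
theorem centres_valAt_frob {f : ↥(modularFunctionFieldFullC k M0)}
    (hf : frobAut k M0 q • f = f) {P : Place k ↥(modularFunctionFieldFullC k M0)} {c : k}
    (h : ValAt P f c) : ValAt (frobAut k M0 q • P) f (c ^ q) := by
  have h1 := (valAt_semilinear_smul_iff (frobAut k M0 q) P f c).mpr h
  rwa [hf, baseAut_frobAut_apply] at h1

/-- `f(Φ P) = f(P)^q`, as an equivalence. -/
theorem centres_valAt_frob_iff {f : ↥(modularFunctionFieldFullC k M0)}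
    (hf : frobAut k M0 q • f = f) (P : Place k ↥(modularFunctionFieldFullC k M0)) (c : k) :
    ValAt (frobAut k M0 q • P) f (c ^ q) ↔ ValAt P f c := by
  have h1 := valAt_semilinear_smul_iff (frobAut k M0 q) P f c
  rwa [hf, baseAut_frobAut_apply] at h1

/-- **`f(Φ⁻¹ P)^q = f(P)`** for a `Φ`-fixed function `f`. -/
theorem centres_valAt_frob_inv {f : ↥(modularFunctionFieldFullC k M0)}
    (hf : frobAut k M0 q • f = f) {P : Place k ↥(modularFunctionFieldFullC k M0)} {c : k}
    (h : ValAt ((frobAut k M0 q)⁻¹ • P) f c) : ValAt P f (c ^ q) := by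
  have h1 := centres_valAt_frob k M0 q hf h
  rwa [smul_inv_smul] at h1

/-- **T's node convention** (`s₂ = Φ⁻¹ • s₁`, `Lib/BadRed/Final/Core.lean`): at a place `P`
with `Φ² P = P` the second branch `Φ⁻¹ P` is the twist `Φ P`, and a `Φ`-fixed function takes the
value `f(P)^q` there. -/
theorem centres_node_twist {f : ↥(modularFunctionFieldFullC k M0)}
    (hf : frobAut k M0 q • f = f) {P : Place k ↥(modularFunctionFieldFullC k M0)}
    (h2 : (frobAut k M0 q * frobAut k M0 q) • P = P) {c : k} (h : ValAt P f c) :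
    (frobAut k M0 q)⁻¹ • P = frobAut k M0 q • P ∧
      ValAt ((frobAut k M0 q)⁻¹ • P) f (c ^ q) := by
  have e := centres_frob_inv_eq k M0 q h2
  refine ⟨e, ?_⟩
  rw [e]
  exact centres_valAt_frob k M0 q hf h

end SS

/-! ### rational functions -/

section Rat

variable {A : ValuationSubring Qb} {q : ℕ}

/-- the residue of a rational number of `A` lies in the prime field. -/
theorem centres_residue_rat_pow [Fact q.Prime] [CharP (IsLocalRing.ResidueField A) q] (c : ℚ)
    (hc : algebraMap ℚ Qb c ∈ A) :
    IsLocalRing.residue A ⟨algebraMap ℚ Qb c, hc⟩ ^ q =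
      IsLocalRing.residue A ⟨algebraMap ℚ Qb c, hc⟩ := by
  set x : A := ⟨algebraMap ℚ Qb c, hc⟩ with hx
  have e : x * ((c.den : ℕ) : A) = ((c.num : ℤ) : A) := by
    apply Subtype.ext
    push_cast
    rw [hx]
    show algebraMap ℚ Qb c * (c.den : Qb) = (c.num : Qb)
    rw [← map_natCast (algebraMap ℚ Qb), ← map_mul, Rat.mul_den_eq_num, map_intCast]
  have e1 : IsLocalRing.residue A x * ((c.den : ℕ) : IsLocalRing.ResidueField A) =
      ((c.num : ℤ) : IsLocalRing.ResidueField A) := by
    rw [← map_natCast (IsLocalRing.residue A), ← map_mul, e, map_intCast]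
  have e2 : IsLocalRing.residue A x ^ q * ((c.den : ℕ) : IsLocalRing.ResidueField A) =
      ((c.num : ℤ) : IsLocalRing.ResidueField A) := by
    have h := congrArg (frobenius (IsLocalRing.ResidueField A) q) e1
    rwa [map_mul, map_natCast, map_intCast, frobenius_def] at h
  have hd : ((c.den : ℕ) : IsLocalRing.ResidueField A) ≠ 0 := by
    intro h0
    have hn0 : ((c.num : ℤ) : IsLocalRing.ResidueField A) = 0 := by
      rw [← e1, h0, mul_zero]
    have h1 : q ∣ c.den := (CharP.cast_eq_zero_iff (IsLocalRing.ResidueField A) q c.den).mp h0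
    have h2 : (q : ℤ) ∣ c.num :=
      (CharP.intCast_eq_zero_iff (IsLocalRing.ResidueField A) q c.num).mp hn0
    have h3 : q ∣ c.num.natAbs := Int.natCast_dvd.mp h2
    have h4 : q ∣ Nat.gcd c.num.natAbs c.den := Nat.dvd_gcd h3 h1
    rw [c.reduced] at h4
    exact (Fact.out : q.Prime).one_lt.ne' (Nat.dvd_one.mp h4)
  exact mul_right_cancel₀ hd (e2.trans e1.symm)

variable {M0 : ℕ} [NeZero M0] {hq : q.Prime} {hA : A.LiesOverPrime q} {hqM : ¬ q ∣ M0}

/-- **the reduction of a rational `q`-integral function is fixed by the Frobenius**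
(hypotheses = the fields `int`, `red_coeff` of `ExTDatum`). -/
theorem centres_frob_red [Fact q.Prime] [CharP (IsLocalRing.ResidueField A) q]
    [PerfectRing (IsLocalRing.ResidueField A) q] (t0 : LaurentSeries ℚ)
    (h : coeffEmb Qb t0 ∈ modularFunctionFieldBar M0)
    (hint : ∀ n : ℤ, algebraMap ℚ Qb (t0.coeff n) ∈ A)
    (hred : ∀ (n : ℤ) (hn : algebraMap ℚ Qb (t0.coeff n) ∈ A),
      (((modularValSetup A q M0 hq hA hqM).red
          (⟨coeffEmb Qb t0, h⟩ : modularFunctionFieldBar M0) :
          modularFunctionFieldFullC (IsLocalRing.ResidueField A) M0) :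
          LaurentSeries (IsLocalRing.ResidueField A)).coeff n =
        IsLocalRing.residue A ⟨algebraMap ℚ Qb (t0.coeff n), hn⟩) :
    frobAut (IsLocalRing.ResidueField A) M0 q •
        (modularValSetup A q M0 hq hA hqM).red
          (⟨coeffEmb Qb t0, h⟩ : modularFunctionFieldBar M0) =
      (modularValSetup A q M0 hq hA hqM).red
        (⟨coeffEmb Qb t0, h⟩ : modularFunctionFieldBar M0) := by
  apply Subtype.ext
  rw [coe_frobAut_smul]
  ext n
  rw [coeffMap_coeff, hred n (hint n), frobenius_def]
  exact centres_residue_rat_pow (t0.coeff n) (hint n)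

namespace ExTDatum

variable [Fact q.Prime] [CharP (IsLocalRing.ResidueField A) q]
  [PerfectRing (IsLocalRing.ResidueField A) q]
  {P : Place (IsLocalRing.ResidueField A)
    (modularFunctionFieldFullC (IsLocalRing.ResidueField A) M0)} {t0 : LaurentSeries ℚ}

/-- the reduction of the datum `t` is fixed by the Frobenius. -/
theorem red_fixed (D : ExTDatum A q M0 hq hA hqM P t0)
    (h : coeffEmb Qb t0 ∈ modularFunctionFieldBar M0) :
    frobAut (IsLocalRing.ResidueField A) M0 q •
        (modularValSetup A q M0 hq hA hqM).red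
          (⟨coeffEmb Qb t0, h⟩ : modularFunctionFieldBar M0) =
      (modularValSetup A q M0 hq hA hqM).red
        (⟨coeffEmb Qb t0, h⟩ : modularFunctionFieldBar M0) :=
  centres_frob_red t0 h D.int (D.red_coeff h)

/-- **a datum `t` at `P` is a datum at `Φ P`.** -/
theorem frob (D : ExTDatum A q M0 hq hA hqM P t0) :
    ExTDatum A q M0 hq hA hqM (frobAut (IsLocalRing.ResidueField A) M0 q • P) t0 where
  mem := D.mem
  int := D.int
  mem_Ov := D.mem_Ov
  red_coeff := D.red_coeff
  poles := D.poles
  unif := fun h => by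
    rw [centres_ord_frob _ M0 q (D.red_fixed h) P]
    exact D.unif h

/-- **a datum `t` at `P` is a datum at `Φ⁻¹ P`.** -/
theorem frob_inv (D : ExTDatum A q M0 hq hA hqM P t0) :
    ExTDatum A q M0 hq hA hqM ((frobAut (IsLocalRing.ResidueField A) M0 q)⁻¹ • P) t0 where
  mem := D.mem
  int := D.int
  mem_Ov := D.mem_Ov
  red_coeff := D.red_coeff
  poles := D.poles
  unif := fun h => by
    rw [centres_ord_frob_inv _ M0 q (D.red_fixed h) P]
    exact D.unif h

/-- `t̄(Φ P) = t̄(P)^q`. -/
theorem valAt_frob (D : ExTDatum A q M0 hq hA hqM P t0)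
    (h : coeffEmb Qb t0 ∈ modularFunctionFieldBar M0)
    {Q : Place (IsLocalRing.ResidueField A)
      (modularFunctionFieldFullC (IsLocalRing.ResidueField A) M0)}
    {c : IsLocalRing.ResidueField A}
    (hc : ValAt Q ((modularValSetup A q M0 hq hA hqM).red
      (⟨coeffEmb Qb t0, h⟩ : modularFunctionFieldBar M0)) c) :
    ValAt (frobAut (IsLocalRing.ResidueField A) M0 q • Q)
      ((modularValSetup A q M0 hq hA hqM).red
        (⟨coeffEmb Qb t0, h⟩ : modularFunctionFieldBar M0)) (c ^ q) :=
  centres_valAt_frob _ M0 q (D.red_fixed h) hc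

end ExTDatum

end Rat

end Fermat.Agent.S36G
end
end MergeWrap_S36_HPVal_Centres
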