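import Mathlib
import Fermat.Agent.MU.S36.HPVal.KCt
import Fermat.Agent.Lib.GaussInt.ValGroup

section MergeWrap_S36_HPVal_KCtRat -- from S36/HPVal/KCtRat.lean

set_option autoImplicit false
set_option linter.style.haveILetI false
set_option linter.unusedSectionVars false
set_option linter.unusedVariables false

noncomputable section
attribute [local instance 10000] SubalgebraClass.toAlgebra HahnSeries.powerSeriesAlgebra

namespace Fermat.Agent.S36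

open ModularCurve AlgebraicCurve Fermat.Agent.GaussInt Polynomial Fermat.Agent.Kronecker
  Fermat.Agent.BadRed

variable {ℓ : ℕ} [NeZero ℓ]

section Rat

variable (A : ValuationSubring Qb)

/-- integers prime to `ℓ` are units of `A`. -/
theorem kct_int_inv_mem (hℓ : ℓ.Prime) (hA : A.LiesOverPrime ℓ) (x : ℤ) (hx : ¬ (ℓ : ℤ) ∣ x) :
    ((x : Qb))⁻¹ ∈ A := by
  haveI : CharP (IsLocalRing.ResidueField A) ℓ := charP_residueField_of_liesOverPrime A ℓ hℓ hA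
  have hu : IsUnit ((x : ℤ) : A) := by
    by_contra hnu
    have h1 : IsLocalRing.residue A ((x : ℤ) : A) = 0 :=
      (IsLocalRing.residue_eq_zero_iff _).mpr ((IsLocalRing.mem_maximalIdeal _).mpr hnu)
    rw [map_intCast, CharP.intCast_eq_zero_iff (IsLocalRing.ResidueField A) ℓ] at h1
    exact hx h1
  obtain ⟨u, hu⟩ := hu
  have h2 : ((u : A) : Qb) * (((u⁻¹ : (↥A)ˣ) : A) : Qb) = 1 := by
    rw [← MulMemClass.coe_mul, Units.mul_inv]; rfl
  have h3 : ((u : A) : Qb) = (x : Qb) := by rw [hu]; simp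
  rw [h3] at h2
  rw [← eq_inv_of_mul_eq_one_right h2]
  exact (((u⁻¹ : (↥A)ˣ) : A)).2

theorem kct_int_mem (x : ℤ) : (x : Qb) ∈ A := by
  have : (x : Qb) = (((x : ℤ) : A) : Qb) := by simp
  rw [this]
  exact ((x : ℤ) : A).2

/-- **Fermat's little theorem in `ℤ_(ℓ) ⊆ A`**: `r ^ ℓ - r ∈ ℓ A` for `r ∈ ℚ ∩ A`. -/
theorem kct_rat_frob (hℓ : ℓ.Prime) (hA : A.LiesOverPrime ℓ) (r : ℚ)
    (hr : algebraMap ℚ Qb r ∈ A) :
    ∃ a : Qb, a ∈ A ∧ (algebraMap ℚ Qb r) ^ ℓ - algebraMap ℚ Qb r = (ℓ : Qb) * a := by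
  haveI : Fact ℓ.Prime := ⟨hℓ⟩
  set m : ℤ := r.num with hm
  set d : ℕ := r.den with hd
  have hd0 : (d : Qb) ≠ 0 := by
    exact_mod_cast r.den_nz
  have hℓ0 : (ℓ : Qb) ≠ 0 := by exact_mod_cast (NeZero.ne ℓ)
  have hrQ : algebraMap ℚ Qb r = (m : Qb) / (d : Qb) := by
    rw [eq_ratCast, hm, hd]
    exact Rat.cast_def r
  -- `ℓ ∤ d`
  have hℓd : ¬ (ℓ : ℤ) ∣ (d : ℤ) := by
    rintro ⟨d', hd'⟩
    have hℓm : ¬ (ℓ : ℤ) ∣ m := by
      intro hdiv
      have hcop : Nat.Coprime m.natAbs d := r.reduced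
      have h1 : ℓ ∣ m.natAbs := Int.natCast_dvd.mp hdiv
      have h2 : ℓ ∣ d := by
        have : (ℓ : ℤ) ∣ (d : ℤ) := ⟨d', hd'⟩
        exact_mod_cast this
      have h3 : ℓ ∣ Nat.gcd m.natAbs d := Nat.dvd_gcd h1 h2
      rw [hcop] at h3
      exact hℓ.one_lt.ne' (Nat.dvd_one.mp h3)
    have hminv := kct_int_inv_mem A hℓ hA m hℓm
    have hm0 : (m : Qb) ≠ 0 := by
      intro h0
      apply hℓm
      have : m = 0 := by exact_mod_cast h0
      rw [this]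
      exact dvd_zero _
    -- `ℓ⁻¹ = r d' m⁻¹ ∈ A`
    have hinv : ((ℓ : Qb))⁻¹ = algebraMap ℚ Qb r * (d' : Qb) * ((m : Qb))⁻¹ := by
      have hdd : (d : Qb) = (ℓ : Qb) * (d' : Qb) := by exact_mod_cast hd'
      have hd'0 : (d' : Qb) ≠ 0 := by
        intro h0
        rw [h0, mul_zero] at hdd
        exact hd0 hdd
      rw [hrQ, hdd]
      field_simp
    have hmemA : ((ℓ : Qb))⁻¹ ∈ A := by
      rw [hinv]
      exact A.mul_mem _ _ (A.mul_mem _ _ hr (kct_int_mem A d')) hminv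
    have hnon : (ℓ : Qb) ∈ A.nonunits := hA
    rw [ValuationSubring.mem_nonunits_iff_exists_mem_maximalIdeal] at hnon
    obtain ⟨hmem, hmax⟩ := hnon
    apply (IsLocalRing.mem_maximalIdeal _).mp hmax
    refine isUnit_iff_exists_inv.mpr ⟨⟨((ℓ : Qb))⁻¹, hmemA⟩, Subtype.ext ?_⟩
    show (ℓ : Qb) * ((ℓ : Qb))⁻¹ = 1
    exact mul_inv_cancel₀ hℓ0
  have hdinv : ((d : Qb))⁻¹ ∈ A := by
    have := kct_int_inv_mem A hℓ hA (d : ℤ) hℓd
    simpa using this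
  -- Fermat
  obtain ⟨e, he⟩ : (ℓ : ℤ) ∣ m ^ ℓ * d - m * (d : ℤ) ^ ℓ := by
    rw [← ZMod.intCast_zmod_eq_zero_iff_dvd]
    push_cast
    rw [ZMod.pow_card, ZMod.pow_card, sub_self]
  refine ⟨(e : Qb) * ((d : Qb))⁻¹ ^ (ℓ + 1), A.mul_mem _ _ (kct_int_mem A e)
    (pow_mem hdinv _), ?_⟩
  have heQ : (m : Qb) ^ ℓ * (d : Qb) - (m : Qb) * (d : Qb) ^ ℓ = (ℓ : Qb) * (e : Qb) := by
    exact_mod_cast he
  rw [hrQ, div_pow, ← mul_assoc, ← heQ, inv_pow]
  field_simp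
  ring

/-- the `A`-integral series of a rational series with `A`-integral coefficients. -/
def kctLift (t0 : LaurentSeries ℚ) (hint : ∀ n : ℤ, algebraMap ℚ Qb (t0.coeff n) ∈ A) :
    LaurentSeries A :=
  liftA A (coeffEmb Qb t0) hint

theorem emb_kctLift (t0 : LaurentSeries ℚ) (hint : ∀ n : ℤ, algebraMap ℚ Qb (t0.coeff n) ∈ A) :
    emb A (kctLift A t0 hint) = coeffEmb Qb t0 :=
  emb_liftA A _ _

theorem kct_frobStable_rat (hℓ : ℓ.Prime) (hA : A.LiesOverPrime ℓ) (t0 : LaurentSeries ℚ)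
    (hint : ∀ n : ℤ, algebraMap ℚ Qb (t0.coeff n) ∈ A) :
    KctFrobStable ℓ A (kctLift A t0 hint) := by
  intro n
  obtain ⟨a, ha, hra⟩ := kct_rat_frob A hℓ hA (t0.coeff n) (hint n)
  refine ⟨⟨a, ha⟩, Subtype.ext ?_⟩
  have h1 : (((kctLift A t0 hint).coeff n : A) : Qb) = algebraMap ℚ Qb (t0.coeff n) := rfl
  push_cast
  rw [h1, hra]

end Rat

section Main

variable (N : ℕ) [NeZero N]

/-- **(KC_t), rational form**: for a rational function `t0 ∈ F_N ⊆ ℚ((q))` with `A`-integral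
`q`-expansion, the remainder `R_t` of `t = coeffEmb t0` has coefficients in the Gauss ring. -/
theorem kctR_coeff_mem_rat (hℓ : ℓ.Prime) (A : ValuationSubring Qb) (hA : A.LiesOverPrime ℓ)
    (hℓN : ¬ ℓ ∣ N) (t0 : LaurentSeries ℚ)
    (hint : ∀ n : ℤ, algebraMap ℚ Qb (t0.coeff n) ∈ A)
    (h : coeffEmb Qb t0 ∈ modularFunctionFieldBar N) (i : ℕ) :
    (kctR N hℓ hℓN ⟨coeffEmb Qb t0, h⟩).coeff i ∈ gaussOv N hℓ A hA := by
  have hz : emb A (kctLift A t0 hint) ∈ modularFunctionFieldBar N := by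
    rw [emb_kctLift]; exact h
  have h1 := kctR_coeff_mem N hℓ A hA hℓN (kctLift A t0 hint) hz
    (kct_frobStable_rat A hℓ hA t0 hint) i
  have h2 : (⟨emb A (kctLift A t0 hint), hz⟩ : ↥(modularFunctionFieldBar N)) =
      ⟨coeffEmb Qb t0, h⟩ := Subtype.ext (emb_kctLift A t0 hint)
  rwa [h2] at h1

end Main

end Fermat.Agent.S36
end
end MergeWrap_S36_HPVal_KCtRat
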