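import Mathlib
import Fermat.Agent.MU.S36.HPVal.Val

section MergeWrap_S36_HPVal_ValAt -- from S36/HPVal/ValAt.lean

set_option autoImplicit false
set_option linter.style.haveILetI false
set_option linter.unusedSectionVars false
set_option linter.unusedVariables false
set_option synthInstance.maxHeartbeats 400000

noncomputable section
attribute [local instance 10000] SubalgebraClass.toAlgebra HahnSeries.powerSeriesAlgebra

namespace Fermat.Agent.S36G

open ModularCurve AlgebraicCurve IntermediateField Fermat.Agent.F3 Fermat.Agent.F3G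
  Fermat.Agent.GaussInt Fermat.Agent.Deuring Fermat.Agent.BadRed Fermat.Agent.HPVal
  Fermat.Agent.HP

local notation "Qb" => AlgebraicClosure ℚ

/-- **W-P at `wpdSetup`, with exported witnesses**: for every root `ϖ` of `X ^ (q + 1) = q` and
every supersingular place `P` a `WPOut` `O` with `O.ϖ = ϖ`, `O.a = 0`, `O.P' = frobAut • P`. -/
def WPExistsAt (M₀ q : ℕ) [NeZero M₀] [NeZero q] : Prop :=
  ∀ (hq : q.Prime) (hqM : ¬ q ∣ M₀) (A : ValuationSubring Qb) (hA : A.LiesOverPrime q)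
    (hg : genusFF Qb (modularFunctionFieldBar M₀) =
      genusFF (IsLocalRing.ResidueField A)
        (modularFunctionFieldFullC (IsLocalRing.ResidueField A) M₀))
    [Fact q.Prime] [CharP (IsLocalRing.ResidueField A) q]
    [PerfectRing (IsLocalRing.ResidueField A) q]
    (ϖ : Qb), ϖ ^ (q + 1) = (q : Qb) →
    ∀ P : Place (IsLocalRing.ResidueField A)
      ↥(modularFunctionFieldFullC (IsLocalRing.ResidueField A) M₀),
    IsSSPlace (IsLocalRing.ResidueField A) M₀ q P →
    ∃ (FkP : Type) (_ : Field FkP) (_ : Algebra (IsLocalRing.ResidueField A) FkP)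
      (O : WPOut M₀ q A (wpdSetup A q M₀ hq hA hqM hg) P FkP),
      O.ϖ = ϖ ∧ O.a = 0 ∧ O.P' = frobAut (IsLocalRing.ResidueField A) M₀ q • P

/-- **VAL-AT**: EX_t + the value part ⟹ `WPOut` with the prescribed `ϖ`, `a = 0`,
`P' = frobAut • P`, at every supersingular place. -/
theorem wpExistsAt_of_val (M₀ q : ℕ) [NeZero M₀] [NeZero q] (hT : ExTStatement q M₀)
    (hV : WPValStatement M₀ q) : WPExistsAt M₀ q := by
  intro hq hqM A hA hg _ _ _ ϖ hϖ P hP
  haveI : IsAlgClosed (IsLocalRing.ResidueField A) := isAlgClosed_residue A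
  obtain ⟨t0, D⟩ := hT A hq hA hqM hg P (seedOld_ord_jC_nonneg M₀ hq hA hP)
  obtain ⟨FkP, i₁, i₂, ⟨V⟩⟩ := hV hq hqM A hA hg P hP t0 D ϖ hϖ
  have hres0 : IsLocalRing.residue A ⟨(0 : Qb), A.zero_mem⟩ = 0 := map_zero _
  have hres0' : IsLocalRing.residue A ⟨(0 : Qb) ^ q, pow_mem A.zero_mem q⟩ = 0 := by
    have e : (⟨(0 : Qb) ^ q, pow_mem A.zero_mem q⟩ : A) = 0 :=
      Subtype.ext (zero_pow hq.ne_zero)
    rw [e, map_zero]
  refine ⟨FkP, i₁, i₂,
    WPOut.ofVal V (centres_isSS_frob _ M₀ q hP) (wpdT_rat M₀ t0 D.mem)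
      (wpdT_mem_discRing_ss A q M₀ hq hA hqM hg D) A.zero_mem
      (zero_pow (pow_ne_zero 2 hq.ne_zero)) ?_ ?_ hϖ, rfl, rfl, rfl⟩
  · rw [hres0, map_zero, sub_zero, wpdSetup_red]
    exact D.unif _
  · rw [hres0', map_zero, sub_zero, wpdSetup_red]
    exact D.frob.unif _

/-- **W-P with exported witnesses, the assembly**: EX_t + CORE-MOD + OLD. -/
theorem wpExistsAt_of (M₀ q : ℕ) [NeZero M₀] [NeZero q] (hT : ExTStatement q M₀)
    (hC : WPCoreModExists M₀ q) (hO : WPOldExists M₀ q) : WPExistsAt M₀ q :=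
  wpExistsAt_of_val M₀ q hT (wpValStatement_of M₀ q hC hO)

/-- the form with exported witnesses gives `WPExists` (a root `ϖ` exists). -/
theorem wpExists_of_at (M₀ q : ℕ) [NeZero M₀] [NeZero q] (h : WPExistsAt M₀ q) :
    WPExists M₀ q := by
  intro hq hqM A hA hg P hP
  haveI : Fact q.Prime := ⟨hq⟩
  haveI : IsAlgClosed (IsLocalRing.ResidueField A) := isAlgClosed_residue A
  haveI : CharP (IsLocalRing.ResidueField A) q := Fermat.Agent.FrobTrace.charP_residueField A hA
  haveI : PerfectRing (IsLocalRing.ResidueField A) q := inferInstance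
  obtain ⟨ϖ, hϖ, -, -, -⟩ := wpd_exists_pi (A := A) hq hA
  obtain ⟨FkP, i₁, i₂, O, -, -, -⟩ := h hq hqM A hA hg ϖ hϖ P hP
  exact ⟨FkP, i₁, i₂, ⟨O⟩⟩

end Fermat.Agent.S36G
end
end MergeWrap_S36_HPVal_ValAt
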