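import Mathlib
import Fermat.Agent.MU.R38.D.SpJD
import Fermat.Agent.MU.Lib.BadRed.PeuD.Coord
import Fermat.Agent.MU.Lib.BadRed.Mod.ALDegeneracy
import Fermat.Agent.MU.Lib.BadRed.Nodal.Gluing.Semilinear

section MergeWrap_S36_HPVal_Reg -- from S36/HPVal/Reg.lean

set_option autoImplicit false
set_option linter.style.haveILetI false
set_option linter.unusedSectionVars false
set_option linter.unusedVariables false
set_option synthInstance.maxHeartbeats 400000

noncomputable section
attribute [local instance 10000] SubalgebraClass.toAlgebra HahnSeries.powerSeriesAlgebra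

namespace Fermat.Agent.S36G

open IntermediateField ModularCurve AlgebraicCurve Fermat.Agent.F3 Fermat.Agent.F3G
  Fermat.Agent.GaussInt Fermat.Agent.AtkinLehner Fermat.Agent.Deuring Fermat.Agent.RR
  Fermat.Agent.BadRed Fermat.Agent.EKp Fermat.Agent.PeuD

local notation "Qb" => AlgebraicClosure ℚ

attribute [local instance] Fermat.Agent.BadRed.fwFintype

/-! ### the functions `z` and `δ` -/

section Defs

variable (D : ALData) [NeZero D.Q] [NeZero D.R] [NeZero (D.Q * D.R)]

/-- `z = α t - (β t) ^ q`. -/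
def regZ (t : modularFunctionFieldBar D.R) : modularFunctionFieldBar (D.Q * D.R) :=
  alphaQ D t - betaQ D t ^ D.Q

/-- `δ = (β t - (α t) ^ q) / q`. -/
def regDelta (t : modularFunctionFieldBar D.R) : modularFunctionFieldBar (D.Q * D.R) :=
  (betaQ D t - alphaQ D t ^ D.Q) /
    algebraMap Qb (modularFunctionFieldBar (D.Q * D.R)) (D.Q : Qb)

/-- `w_q (z / q) = δ`. -/
theorem atkinLehner_regZ_div (t : modularFunctionFieldBar D.R) :
    atkinLehner D (regZ D t / algebraMap Qb (modularFunctionFieldBar (D.Q * D.R)) (D.Q : Qb)) =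
      regDelta D t := by
  unfold regZ regDelta
  rw [map_div₀, map_sub, map_pow, atkinLehner_alphaQ, atkinLehner_betaQ, AlgEquiv.commutes]

/-- `ε = δ z` (`= R_t (β t)` for the Kronecker form `Ψ_t = (X - t^q)(X^q - t) + q R_t`). -/
def regEps (t : modularFunctionFieldBar D.R) : modularFunctionFieldBar (D.Q * D.R) :=
  regDelta D t * regZ D t

end Defs

variable (D : ALData) [NeZero D.Q] [NeZero D.R] [NeZero (D.Q * D.R)]
  (A : ValuationSubring Qb) (hq : D.Q.Prime) (hA : A.LiesOverPrime D.Q) (hqR : ¬ D.Q ∣ D.R)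
  [Fact D.Q.Prime] [CharP (IsLocalRing.ResidueField A) D.Q]
  [PerfectRing (IsLocalRing.ResidueField A) D.Q]

/-- **the hypotheses on `t`.** -/
structure RegData (haux : AuxLevelOK D.Q D.R) (t : modularFunctionFieldBar D.R) : Prop where
  alpha_mem : alphaQ D t ∈ (kpS D A hq hA hqR).Ov
  beta_mem : betaQ D t ∈ (kpS D A hq hA hqR).Ov
  delta_mem : regDelta D t ∈ (kpS D A hq hA hqR).Ov
  pole_alpha : ∀ P, (kpSeed D A hq hA hqR haux).rmap P = none → 0 ≤ P.ord (alphaQ D t)
  pole_beta : ∀ P, (kpSeed D A hq hA hqR haux).rmap P = none → 0 ≤ P.ord (betaQ D t)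
  node : ∀ i : kpIota D A hq hA hqR,
    ((kpSeed D A hq hA hqR haux).s₁ i).ord ((kpS D A hq hA hqR).red (regZ D t)) = 1

variable {D A hq hA hqR}

/-- `z` is a coordinate (row 38, `PeuD.CoordData`) of the modular nodal seed. -/
theorem RegData.coordData {haux : AuxLevelOK D.Q D.R} {t : modularFunctionFieldBar D.R}
    (h : RegData D A hq hA hqR haux t) (h4 : 4 ∣ D.R ∨ 9 ∣ D.R) :
    CoordData (kpSeed D A hq hA hqR haux) (fwU D) (fwPi D) (D.Q : Qb) 12 (regZ D t) where
  ann := wu_annulus D A hq hA hqR haux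
  e_pos := by norm_num
  val_varpi := wu_val_pi D A hq hA hqR haux
  sum_eps := wu_sum_eps D A hq hA hqR haux h4
  z_mem₁ := sub_mem h.alpha_mem (pow_mem h.beta_mem _)
  z_mem₂ := by
    show regZ D t / algebraMap Qb (modularFunctionFieldBar (D.Q * D.R)) (D.Q : Qb) ∈
      (valSetupZero D (kpS D A hq hA hqR)).Ov
    rw [mem_valSetupZero_Ov, atkinLehner_regZ_div]
    exact h.delta_mem
  z_pole := by
    intro P hP
    apply Fermat.Agent.S24Res.ord_nonneg_of_mem
    exact sub_mem (Fermat.Agent.FF.mem_of_ord_nonneg' P (h.pole_alpha P hP))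
      (pow_mem (Fermat.Agent.FF.mem_of_ord_nonneg' P (h.pole_beta P hP)) _)
  z_node := h.node

section Main

variable {haux : AuxLevelOK D.Q D.R} {t : modularFunctionFieldBar D.R}

/-- `red_∞ δ ≠ 0`. -/
theorem reg_delta_ne (h : RegData D A hq hA hqR haux t) (h4 : 4 ∣ D.R ∨ 9 ∣ D.R) :
    (kpS D A hq hA hqR).red (regDelta D t) ≠ 0 := by
  haveI := infinite_residue A
  haveI := fw_nonempty D A hq hA (kpS D A hq hA hqR) (isGaussSetup_gaussSetupBad D hq hqR A hA)
  have h2 := (h.coordData h4).red₂_ne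
  have e : (kpSeed D A hq hA hqR haux).S₂.red
      (regZ D t / algebraMap Qb (modularFunctionFieldBar (D.Q * D.R)) (D.Q : Qb)) =
      (kpS D A hq hA hqR).red (regDelta D t) := by
    show (valSetupZero D (kpS D A hq hA hqR)).red _ = _
    rw [valSetupZero_red, atkinLehner_regZ_div]
  rwa [e] at h2

/-- `z` has no zero at the places of type N. -/
theorem reg_no_zero_N (h : RegData D A hq hA hqR haux t) (h4 : 4 ∣ D.R ∨ 9 ∣ D.R)
    {P : Place Qb (modularFunctionFieldBar (D.Q * D.R))}
    (hP : (kpSeed D A hq hA hqR haux).rmap P = none) : P.ord (regZ D t) = 0 := by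
  haveI := infinite_residue A
  haveI := fw_nonempty D A hq hA (kpS D A hq hA hqR) (isGaussSetup_gaussSetupBad D hq hqR A hA)
  exact (h.coordData h4).ord_z_N hP

/-- **REGULARITY**: `red_∞ δ` has a simple pole at the second branch of every node. -/
theorem reg_simple_pole (h : RegData D A hq hA hqR haux t) (h4 : 4 ∣ D.R ∨ 9 ∣ D.R)
    (i : kpIota D A hq hA hqR) :
    ((kpSeed D A hq hA hqR haux).s₂ i).ord ((kpS D A hq hA hqR).red (regDelta D t)) = -1 := by
  haveI := infinite_residue A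
  haveI := fw_nonempty D A hq hA (kpS D A hq hA hqR) (isGaussSetup_gaussSetupBad D hq hqR A hA)
  have hC := h.coordData h4
  have hθ : NoDivAtNode (kpSeed D A hq hA hqR haux) i (regZ D t) := fun P hP => hC.ord_z_N hP.1
  have h₁ : (kpSeed D A hq hA hqR haux).S₁.red
      (regZ D t / algebraMap Qb (modularFunctionFieldBar (D.Q * D.R)) (1 : Qb)) ≠ 0 := by
    rw [map_one, div_one]
    exact hC.red₁_ne
  have h₂ := hC.red₂_ne
  have hR1 : ∃ (b : ℕ) (a : ℤ), 0 < b ∧
      (kpSeed D A hq hA hqR haux).S₁.A.valuation ((((D.Q : ℕ) : Qb) / 1) ^ b) =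
        (kpSeed D A hq hA hqR haux).S₁.A.valuation (fwPi D ^ a) := by
    refine ⟨12, 1, by norm_num, ?_⟩
    rw [div_one, zpow_one, wu_val_pi D A hq hA hqR haux]
  obtain ⟨hs, -⟩ := wu_slope_loc D A hq hA hqR haux i hθ h₁ h₂ hR1
  have e : (kpSeed D A hq hA hqR haux).S₂.red
      (regZ D t / algebraMap Qb (modularFunctionFieldBar (D.Q * D.R)) (D.Q : Qb)) =
      (kpS D A hq hA hqR).red (regDelta D t) := by
    show (valSetupZero D (kpS D A hq hA hqR)).red _ = _
    rw [valSetupZero_red, atkinLehner_regZ_div]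
  rw [e, map_one, div_one] at hs
  rw [hs]
  have := h.node i
  have e1 : (kpSeed D A hq hA hqR haux).S₁.red (regZ D t) =
      (kpS D A hq hA hqR).red (regZ D t) := rfl
  rw [e1, this]

/-- **REGULARITY at `P` itself**, for `δ̄` fixed by the coefficientwise Frobenius. -/
theorem reg_simple_pole_self (h : RegData D A hq hA hqR haux t) (h4 : 4 ∣ D.R ∨ 9 ∣ D.R)
    (hF : frobAut (IsLocalRing.ResidueField A) D.R D.Q • (kpS D A hq hA hqR).red (regDelta D t) =
      (kpS D A hq hA hqR).red (regDelta D t))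
    (i : kpIota D A hq hA hqR) :
    (i.1 : Place (IsLocalRing.ResidueField A)
      (modularFunctionFieldFullC (IsLocalRing.ResidueField A) D.R)).ord
        ((kpS D A hq hA hqR).red (regDelta D t)) = -1 := by
  have h1 := reg_simple_pole h h4 i
  rw [wu_s₂, ← Fermat.Agent.BadRed.Gluing.sl_ord_smul, hF] at h1
  exact h1

/-- the Frobenius image of a supersingular place, as a node. -/
def regFrobNode (j : kpIota D A hq hA hqR) : kpIota D A hq hA hqR :=
  ⟨frobAut (IsLocalRing.ResidueField A) D.R D.Q • j.1,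
    (ord_frobAut_smul_pos_iff _ _ _ D.Q
      (fw_coe_red_uF D A hq hA (kpS D A hq hA hqR) (isGaussSetup_gaussSetupBad D hq hqR A hA))
      j.1).mpr j.2⟩

theorem regFrobNode_s₂ (j : kpIota D A hq hA hqR) :
    (kpSeed D A hq hA hqR haux).s₂ (regFrobNode (hqR := hqR) j) = j.1 := by
  rw [wu_s₂]
  show (frobAut (IsLocalRing.ResidueField A) D.R D.Q)⁻¹ •
    (frobAut (IsLocalRing.ResidueField A) D.R D.Q • j.1) = j.1
  rw [inv_smul_smul]

/-- **REGULARITY at every supersingular place** `P`: `red_∞ δ` has a simple pole at `P`. -/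
theorem reg_simple_pole_ss (h : RegData D A hq hA hqR haux t) (h4 : 4 ∣ D.R ∨ 9 ∣ D.R)
    (j : kpIota D A hq hA hqR) :
    (j.1 : Place (IsLocalRing.ResidueField A)
      (modularFunctionFieldFullC (IsLocalRing.ResidueField A) D.R)).ord
        ((kpS D A hq hA hqR).red (regDelta D t)) = -1 := by
  have h1 := reg_simple_pole h h4 (regFrobNode (hqR := hqR) j)
  rwa [regFrobNode_s₂] at h1

theorem regEps_mem (h : RegData D A hq hA hqR haux t) :
    regEps D t ∈ (kpS D A hq hA hqR).Ov :=
  mul_mem h.delta_mem (sub_mem h.alpha_mem (pow_mem h.beta_mem _))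

theorem red_regEps (h : RegData D A hq hA hqR haux t) :
    (kpS D A hq hA hqR).red (regEps D t) =
      (kpS D A hq hA hqR).red (regDelta D t) * (kpS D A hq hA hqR).red (regZ D t) :=
  (kpS D A hq hA hqR).red_mul h.delta_mem (sub_mem h.alpha_mem (pow_mem h.beta_mem _))

/-- **the constant `c_P`**: `red_∞ (δ z)` has order `0` at every supersingular place. -/
theorem reg_eps_ord (h : RegData D A hq hA hqR haux t) (h4 : 4 ∣ D.R ∨ 9 ∣ D.R)
    (j : kpIota D A hq hA hqR) :
    (j.1 : Place (IsLocalRing.ResidueField A)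
      (modularFunctionFieldFullC (IsLocalRing.ResidueField A) D.R)).ord
        ((kpS D A hq hA hqR).red (regEps D t)) = 0 := by
  haveI := infinite_residue A
  haveI := fw_nonempty D A hq hA (kpS D A hq hA hqR) (isGaussSetup_gaussSetupBad D hq hqR A hA)
  have hδ := reg_delta_ne h h4
  have hz : (kpS D A hq hA hqR).red (regZ D t) ≠ 0 := (h.coordData h4).red₁_ne
  rw [red_regEps h, Place.ord_mul _ hδ hz, reg_simple_pole_ss h h4 j]
  have := h.node j
  rw [wu_s₁] at this
  rw [this]
  norm_num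

/-- **the constant `c_P ≠ 0`**: the value of `red_∞ (δ z)` at a supersingular place. -/
theorem reg_eps_value (h : RegData D A hq hA hqR haux t) (h4 : 4 ∣ D.R ∨ 9 ∣ D.R)
    (j : kpIota D A hq hA hqR) :
    ∃ c : IsLocalRing.ResidueField A, c ≠ 0 ∧
      ValAt j.1 ((kpS D A hq hA hqR).red (regEps D t)) c := by
  haveI := Fermat.Agent.GaussInt.isAlgClosed_residue A
  have hord := reg_eps_ord h h4 j
  obtain ⟨c, hc⟩ := Fermat.Agent.BadRed.Gluing.exists_valAt
    (Fermat.Agent.RRMod.isRRField_fullC' (IsLocalRing.ResidueField A) D.R) j.1 hord.ge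
  refine ⟨c, ?_, hc⟩
  rintro rfl
  rcases (valAt_zero_right_iff _ _).mp hc with h0 | h0
  · have hδ := reg_delta_ne h h4
    haveI := infinite_residue A
    haveI := fw_nonempty D A hq hA (kpS D A hq hA hqR)
      (isGaussSetup_gaussSetupBad D hq hqR A hA)
    have hz : (kpS D A hq hA hqR).red (regZ D t) ≠ 0 := (h.coordData h4).red₁_ne
    rw [red_regEps h] at h0
    exact mul_ne_zero hδ hz h0
  · rw [hord] at h0
    exact lt_irrefl _ h0

end Main

/-! ### the inputs `node` and `pole` of `RegData` -/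

section Inputs

/-- `f - f ^ (q²)` has a simple zero where `f - c` has one (`c ∈ 𝔽_{q²}`). -/
theorem reg_ord_sub_pow {k Fk : Type*} [Field k] [Field Fk] [Algebra k Fk] (q : ℕ)
    [Fact q.Prime] [CharP k q] (P : Place k Fk) {f : Fk} {c : k} (hc : c ^ (q ^ 2) = c)
    (hf : P.ord (f - algebraMap k Fk c) = 1) : P.ord (f - f ^ (q ^ 2)) = 1 := by
  haveI : CharP Fk q := charP_of_injective_algebraMap (algebraMap k Fk).injective q
  obtain ⟨g, hg⟩ : ∃ g : Fk, g = f - algebraMap k Fk c := ⟨_, rfl⟩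
  rw [← hg] at hf
  have hfg : f = g + algebraMap k Fk c := by rw [hg]; ring
  have hg0 : g ≠ 0 := by
    rintro h
    rw [h, Place.ord_zero] at hf
    omega
  have hq2 : 2 ≤ q ^ 2 := by
    have := (Fact.out : q.Prime).two_le
    nlinarith
  have hpow : f ^ (q ^ 2) = g ^ (q ^ 2) + algebraMap k Fk c := by
    rw [hfg, add_pow_char_pow, ← map_pow, hc]
  have e : f - f ^ (q ^ 2) = g + -(g ^ (q ^ 2)) := by
    rw [hpow, hfg]
    ring
  have hlt : P.ord g < P.ord (-(g ^ (q ^ 2))) := by
    rw [Fermat.Agent.BadRed.rn_ord_neg, Fermat.Agent.BadRed.Gluing.ord_pow_nat, hf]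
    have : (2 : ℤ) ≤ ((q ^ 2 : ℕ) : ℤ) := by exact_mod_cast hq2
    omega
  rw [e, Fermat.Agent.BadRed.rx_ord_add_eq_of_lt P hg0 (neg_ne_zero.mpr (pow_ne_zero _ hg0)) hlt,
    hf]

variable {haux : AuxLevelOK D.Q D.R} {t : modularFunctionFieldBar D.R}

/-- the fields `pole_alpha`, `pole_beta` of `RegData` for functions of `L(m D₀)`. -/
theorem reg_pole_of_mem {m : ℕ} {f : modularFunctionFieldBar (D.Q * D.R)}
    (hf : f ∈ riemannRochSpace (m • (kpSeed D A hq hA hqR haux).D₀))
    (P : Place Qb (modularFunctionFieldBar (D.Q * D.R)))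
    (hP : (kpSeed D A hq hA hqR haux).rmap P = none) : 0 ≤ P.ord f := by
  haveI := infinite_residue A
  exact NodalSeed.ord_nonneg_of_rmap_none (kpSeed D A hq hA hqR haux) hf hP

/-- the field `node` of `RegData`: `red (β t) = t̄ ^ q` (rational coefficients) and `t̄` a
uniformiser with value in `𝔽_{q²}` at every supersingular place. -/
theorem reg_node_of_uniformizer
    (halpha : alphaQ D t ∈ (kpS D A hq hA hqR).Ov) (hbeta : betaQ D t ∈ (kpS D A hq hA hqR).Ov)
    (hfrob : (kpS D A hq hA hqR).red (betaQ D t) = (kpS D A hq hA hqR).red (alphaQ D t) ^ D.Q)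
    (i : kpIota D A hq hA hqR) {c : IsLocalRing.ResidueField A} (hc : c ^ (D.Q ^ 2) = c)
    (hi : (i.1 : Place (IsLocalRing.ResidueField A)
      (modularFunctionFieldFullC (IsLocalRing.ResidueField A) D.R)).ord
        ((kpS D A hq hA hqR).red (alphaQ D t) - algebraMap _ _ c) = 1) :
    ((kpSeed D A hq hA hqR haux).s₁ i).ord ((kpS D A hq hA hqR).red (regZ D t)) = 1 := by
  have e : (kpS D A hq hA hqR).red (regZ D t) =
      (kpS D A hq hA hqR).red (alphaQ D t) - (kpS D A hq hA hqR).red (alphaQ D t) ^ (D.Q ^ 2) := by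
    unfold regZ
    rw [(kpS D A hq hA hqR).red_sub halpha (pow_mem hbeta _),
      (kpS D A hq hA hqR).red_pow hbeta, hfrob, ← pow_mul, pow_two]
  rw [e, wu_s₁]
  exact reg_ord_sub_pow D.Q i.1 hc hi

end Inputs

end Fermat.Agent.S36G
end
end MergeWrap_S36_HPVal_Reg
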