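import Mathlib
import Fermat.Agent.MU.R38.D.SpJD
import Fermat.Agent.MU.R38.P.Final
import Fermat.Agent.Lib.RR.Hurwitz.LocalTrace
import Fermat.Agent.S24.Residue

section MergeWrap_S36_HPVal_RegNoPole -- from S36/HPVal/RegNoPole.lean

set_option autoImplicit false
set_option linter.style.haveILetI false
set_option linter.unusedSectionVars false
set_option synthInstance.maxHeartbeats 400000

noncomputable section
attribute [local instance 10000] SubalgebraClass.toAlgebra HahnSeries.powerSeriesAlgebra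

namespace Fermat.Agent.S36G

open IntermediateField ModularCurve AlgebraicCurve Fermat.Agent.F3 Fermat.Agent.F3G
  Fermat.Agent.GaussInt Fermat.Agent.AtkinLehner Fermat.Agent.Deuring Fermat.Agent.RR
  Fermat.Agent.BadRed Fermat.Agent.EKp Fermat.Agent.PeuD

local notation "Qb" => AlgebraicClosure ℚ

attribute [local instance] Fermat.Agent.BadRed.fwFintype

/-! ### abstract part -/

section Abstract

variable {K F F' : Type*} [Field K] [Field F] [Field F'] [Algebra K F] [Algebra K F']

/-- the image of `K[j]` under `φ` lies in the valuation ring of `P` if `φ j` does. -/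
theorem regNoPole_adjoin_mem (φ : F →ₐ[K] F') (P : Place K F') {j : F}
    (hj : 0 ≤ P.ord (φ j)) (x : F) (hx : x ∈ Algebra.adjoin K {j}) :
    φ x ∈ P.toValuationSubring := by
  induction hx using Algebra.adjoin_induction with
  | mem y hy =>
    rw [Set.mem_singleton_iff.mp hy]
    exact Fermat.Agent.S24Res.mem_of_ord_nonneg P hj
  | algebraMap c =>
    rw [AlgHom.commutes]
    exact Fermat.Agent.S24Res.mem_of_ord_nonneg P (Fermat.Agent.S24Res.ord_algebraMap P c).ge
  | add y z _ _ hy hz =>
    rw [map_add]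
    exact add_mem hy hz
  | mul y z _ _ hy hz =>
    rw [map_mul]
    exact mul_mem hy hz

/-- **abstract form**: integrality over `K[j]` is transported by `φ`; valuation rings are
integrally closed. -/
theorem regNoPole_ord_nonneg_of_isIntegral (φ : F →ₐ[K] F') (P : Place K F') {j t : F}
    (ht : IsIntegral (Algebra.adjoin K {j}) t) (hj : 0 ≤ P.ord (φ j)) :
    0 ≤ P.ord (φ t) := by
  apply Fermat.Agent.S24Res.ord_nonneg_of_mem
  obtain ⟨p, hp, hpt⟩ := ht
  let ψ : Algebra.adjoin K {j} →+* P.toValuationSubring :=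
    (φ.toRingHom.comp (algebraMap (Algebra.adjoin K {j}) F)).codRestrict
      P.toValuationSubring.toSubring (fun x => regNoPole_adjoin_mem φ P hj x.1 x.2)
  have hint : IsIntegral P.toValuationSubring (φ t) := by
    refine ⟨p.map ψ, hp.map ψ, ?_⟩
    rw [Polynomial.eval₂_map]
    have hcomp : (algebraMap P.toValuationSubring F').comp ψ =
        φ.toRingHom.comp (algebraMap (Algebra.adjoin K {j}) F) := by
      ext x
      rfl
    rw [hcomp]
    have h1 := Polynomial.hom_eval₂ p (algebraMap (Algebra.adjoin K {j}) F) φ.toRingHom t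
    have h2 : φ.toRingHom t = φ t := rfl
    rw [h2] at h1
    rw [← h1, hpt]
    exact map_zero _
  obtain ⟨y, hy⟩ :=
    (IsIntegrallyClosed.isIntegral_iff (R := P.toValuationSubring) (K := F')).mp hint
  rw [← hy]
  exact y.2

end Abstract

/-! ### `t` is integral over `ℚ̄[j]` -/

/-- a function of `F_N` whose poles are poles of `j` is integral over `ℚ̄[j]`. -/
theorem regNoPole_isIntegral (N : ℕ) [NeZero N] (t : modularFunctionFieldBar N)
    (hpoles : ∀ Q : Place Qb (modularFunctionFieldBar N),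
      0 ≤ Q.ord (Fermat.Agent.S24.jBar N) → 0 ≤ Q.ord t) :
    IsIntegral (Algebra.adjoin Qb {Fermat.Agent.S24.jBar N}) t := by
  haveI : FiniteDimensional Qb⟮Fermat.Agent.S24.jBar N⟯ ↥(modularFunctionFieldBar N) :=
    (Fermat.Agent.S24.isFunctionFieldOver_jBar N).finite
  haveI : CharZero Qb⟮Fermat.Agent.S24.jBar N⟯ :=
    charZero_of_injective_algebraMap (algebraMap Qb Qb⟮Fermat.Agent.S24.jBar N⟯).injective
  haveI : Algebra.IsIntegral Qb⟮Fermat.Agent.S24.jBar N⟯ ↥(modularFunctionFieldBar N) :=
    Algebra.IsIntegral.of_finite _ _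
  haveI : Algebra.IsSeparable Qb⟮Fermat.Agent.S24.jBar N⟯ ↥(modularFunctionFieldBar N) :=
    Algebra.IsSeparable.of_integral _ _
  have h := Fermat.Agent.RRHur.mem_integralClosure_of_forall_mem
    (Fermat.Agent.S24.transcendental_jBar N) t
    (fun Q hQ => Fermat.Agent.S24Res.mem_of_ord_nonneg Q (hpoles Q hQ))
  exact h

/-! ### the modular part -/

section Modular

variable (D : ALData) [NeZero D.Q] [NeZero D.R] [NeZero (D.Q * D.R)]
  (A : ValuationSubring Qb) (hq : D.Q.Prime) (hA : A.LiesOverPrime D.Q) (hqR : ¬ D.Q ∣ D.R)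
  [Fact D.Q.Prime] [CharP (IsLocalRing.ResidueField A) D.Q]
  [PerfectRing (IsLocalRing.ResidueField A) D.Q]

/-- `j` has no pole at a place of node type. -/
theorem regNoPole_ord_jBar (haux : AuxLevelOK D.Q D.R)
    (P : Place Qb (modularFunctionFieldBar (D.Q * D.R)))
    (hP : (kpSeed D A hq hA hqR haux).rmap P = none) :
    0 ≤ P.ord (Fermat.Agent.S24.jBar (D.Q * D.R)) := by
  have hu : P.ord (fwU D) = 0 := wu_ord_N D A hq hA hqR haux P hP
  by_contra hneg
  rw [not_le] at hneg
  exact (ord_jBar_neg_iff_uF hq (Dvd.intro _ rfl) P).mp hneg hu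

/-- `α j` has no pole at a place of node type. -/
theorem regNoPole_ord_alpha_jBar (haux : AuxLevelOK D.Q D.R)
    (P : Place Qb (modularFunctionFieldBar (D.Q * D.R)))
    (hP : (kpSeed D A hq hA hqR haux).rmap P = none) :
    0 ≤ P.ord (alphaQ D (Fermat.Agent.S24.jBar D.R)) := by
  rw [Fermat.Agent.R38.key_alphaQ_jBar]
  exact regNoPole_ord_jBar D A hq hA hqR haux P hP

/-- `β j = j(Qz)` has no pole at a place of node type. -/
theorem regNoPole_ord_beta_jBar (haux : AuxLevelOK D.Q D.R)
    (P : Place Qb (modularFunctionFieldBar (D.Q * D.R)))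
    (hP : (kpSeed D A hq hA hqR haux).rmap P = none) :
    0 ≤ P.ord (betaQ D (Fermat.Agent.S24.jBar D.R)) := by
  by_contra hneg
  rw [not_le] at hneg
  have h1 := Fermat.Agent.R38.key_ord_jBar_of_betaQ D hq P hneg
  have h2 := regNoPole_ord_jBar D A hq hA hqR haux P hP
  omega

/-- **REG-NOPOLE**: at a place of node type, `α t` and `β t` have no pole, for every `t`
whose poles are poles of `j`. -/
theorem reg_noPole (D : ALData) [NeZero D.Q] [NeZero D.R] [NeZero (D.Q * D.R)]
    (A : ValuationSubring Qb) (hq : D.Q.Prime) (hA : A.LiesOverPrime D.Q) (hqR : ¬ D.Q ∣ D.R)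
    [Fact D.Q.Prime] [CharP (IsLocalRing.ResidueField A) D.Q]
    [PerfectRing (IsLocalRing.ResidueField A) D.Q]
    (haux : AuxLevelOK D.Q D.R) (t : modularFunctionFieldBar D.R)
    (hpoles : ∀ Q : Place Qb (modularFunctionFieldBar D.R),
        0 ≤ Q.ord (Fermat.Agent.S24.jBar D.R) → 0 ≤ Q.ord t)
    (P : Place Qb (modularFunctionFieldBar (D.Q * D.R)))
    (hP : (kpSeed D A hq hA hqR haux).rmap P = none) :
    0 ≤ P.ord (alphaQ D t) ∧ 0 ≤ P.ord (betaQ D t) := by
  have hint := regNoPole_isIntegral D.R t hpoles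
  exact ⟨regNoPole_ord_nonneg_of_isIntegral (alphaQ D) P hint
      (regNoPole_ord_alpha_jBar D A hq hA hqR haux P hP),
    regNoPole_ord_nonneg_of_isIntegral (betaQ D) P hint
      (regNoPole_ord_beta_jBar D A hq hA hqR haux P hP)⟩

end Modular

end Fermat.Agent.S36G
end
end MergeWrap_S36_HPVal_RegNoPole
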